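import Fermat.Agent.DirichletLandau.Main
import Mathlib.RingTheory.UniqueFactorizationDomain.Nat

/-!
# The zeros determine the character

If two primitive characters differ at a prime `p`, Landau's formula at `x = p` shows that their
zero multisets up to height `T` differ by at least `c T`.
-/

set_option autoImplicit false

noncomputable section

namespace FA.DirichletLandau

open Complex Filter Topology Set
open DirichletCharacter (LFunction completedLFunction)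
open FA.DirichletZeroCount
open scoped Real ArithmeticFunction.vonMangoldt

variable {q q' : ℕ} [NeZero q] [NeZero q'] {χ : DirichletCharacter ℂ q}
  {ψ : DirichletCharacter ℂ q'}

/-- The multiplicity of a point as a zero of `Λ (s, χ)`. -/
def lMult (χ : DirichletCharacter ℂ q) (ρ : ℂ) : ℕ :=
  analyticOrderNatAt (completedLFunction χ) ρ

theorem lMult_eq_zero (hχ : χ ≠ 1) {ρ : ℂ} (h : completedLFunction χ ρ ≠ 0) : lMult χ ρ = 0 := by
  rw [lMult, analyticOrderNatAt, ((DirichletCharacter.differentiable_completedLFunction hχ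
    ).analyticAt ρ).analyticOrderAt_eq_zero.2 h, ENat.toNat_zero]

theorem lMult_eq_order (hχ : χ ≠ 1) {ρ : ℂ} (h : 0 < ρ.re) :
    lMult χ ρ = analyticOrderNatAt (LFunction χ) ρ :=
  analyticOrderNatAt_completed hχ h

theorem lMult_eq_zero_of_notMem (hp : χ.IsPrimitive) (hχ : χ ≠ 1) {T : ℝ} {ρ : ℂ}
    (hT : |ρ.im| ≤ T) (h : ρ ∉ zerosUp χ hχ T) : lMult χ ρ = 0 :=
  lMult_eq_zero hχ fun h0 => h ((Set.Finite.mem_toFinset _).2 ((mem_lZeros_iff hp hχ).2 ⟨h0, hT⟩))

theorem zeroSum_eq_lMult (hp : χ.IsPrimitive) (hχ : χ ≠ 1) (x T : ℝ) {U : Finset ℂ}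
    (hU : zerosUp χ hχ T ⊆ U) (hUT : ∀ ρ ∈ U, |ρ.im| ≤ T) :
    zeroSum χ x T = ∑ ρ ∈ U, (lMult χ ρ : ℂ) * (x : ℂ) ^ ρ := by
  rw [zeroSum_eq_sum hχ, ← Finset.sum_subset hU fun ρ hρ hn => by
    rw [lMult_eq_zero_of_notMem hp hχ (hUT ρ hρ) hn, Nat.cast_zero, zero_mul]]
  refine Finset.sum_congr rfl fun ρ hρ => ?_
  obtain ⟨-, h0, -, -⟩ := (Set.Finite.mem_toFinset _).1 hρ
  rw [lMult_eq_order hχ h0]

theorem lZeroCount_eq_lMult (hp : χ.IsPrimitive) (hχ : χ ≠ 1) (T : ℝ) {U : Finset ℂ}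
    (hU : zerosUp χ hχ T ⊆ U) (hUT : ∀ ρ ∈ U, |ρ.im| ≤ T) :
    lZeroCount χ T = ∑ ρ ∈ U, lMult χ ρ := by
  rw [lZeroCount_eq_sum hχ, ← Finset.sum_subset hU fun ρ hρ hn =>
    lMult_eq_zero_of_notMem hp hχ (hUT ρ hρ) hn]
  refine Finset.sum_congr rfl fun ρ hρ => ?_
  obtain ⟨-, h0, -, -⟩ := (Set.Finite.mem_toFinset _).1 hρ
  rw [lMult_eq_order hχ h0]

theorem level_one_lt (hχ : χ ≠ 1) : 1 < q := by
  have := NeZero.pos q
  rcases (show 1 ≤ q by omega).eq_or_lt with h | h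
  · exact absurd (DirichletCharacter.level_one' χ h.symm) hχ
  · exact h

/-- Two characters that differ somewhere differ at a prime. -/
theorem exists_prime_ne (hχ : χ ≠ 1) (hψ : ψ ≠ 1) (h : ∃ n : ℕ, χ n ≠ ψ n) :
    ∃ p : ℕ, p.Prime ∧ χ p ≠ ψ p := by
  by_contra hc
  push Not at hc
  obtain ⟨n, hn⟩ := h
  refine hn ?_
  induction n using induction_on_primes with
  | zero =>
    have : Fact (1 < q) := ⟨level_one_lt hχ⟩
    have : Fact (1 < q') := ⟨level_one_lt hψ⟩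
    rw [Nat.cast_zero, Nat.cast_zero, MulChar.map_zero, MulChar.map_zero]
  | one => simp
  | prime_mul p a hp ih =>
    by_cases ha : χ a = ψ a
    · rw [Nat.cast_mul, Nat.cast_mul, map_mul, map_mul, hc p hp, ha]
    · exact absurd (ih ha) ha

/-- **The zero multisets differ by at least `c T`.** -/
theorem exists_diff_lower (hp : χ.IsPrimitive) (hχ : χ ≠ 1) (hp' : ψ.IsPrimitive) (hψ : ψ ≠ 1)
    (hne : ∃ n : ℕ, χ n ≠ ψ n) : ∃ c T₀ : ℝ, 0 < c ∧ ∀ T : ℝ, T₀ ≤ T →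
      c * T ≤ ∑ ρ ∈ zerosUp χ hχ T ∪ zerosUp ψ hψ T, |(lMult χ ρ : ℝ) - lMult ψ ρ| := by
  classical
  obtain ⟨p, hpp, hpne⟩ := exists_prime_ne hχ hψ hne
  have hp1 : (1 : ℝ) < p := Nat.one_lt_cast.2 hpp.one_lt
  obtain ⟨A, hA, hl1⟩ := exists_landau hp hχ hp1
  obtain ⟨B, hB, hl2⟩ := exists_landau hp' hψ hp1
  obtain ⟨d, hd⟩ : ∃ d : ℝ, d = ‖χ p - ψ p‖ * Real.log p / π := ⟨_, rfl⟩
  have hlp : 0 < Real.log p := Real.log_pos hp1
  have hd0 : 0 < d := hd ▸ div_pos (mul_pos (norm_pos_iff.2 (sub_ne_zero.2 hpne)) hlp) Real.pi_pos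
  have hlim : Tendsto (fun T : ℝ => (A + B) * Real.log T ^ 2 / T) atTop (𝓝 0) := by
    have h := (Real.tendsto_pow_log_div_mul_add_atTop 1 0 2 one_ne_zero).const_mul (A + B)
    rw [mul_zero] at h
    refine h.congr fun T => ?_
    rw [one_mul, add_zero, ← mul_div_assoc]
  obtain ⟨T₀, hT₀⟩ := eventually_atTop.1 ((hlim.eventually (eventually_le_nhds (show (0 : ℝ) < d / 2
    by linarith))).and (eventually_ge_atTop 2))
  refine ⟨d / 2 / p, T₀, by positivity, fun T hT => ?_⟩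
  obtain ⟨hsmall, hT2⟩ := hT₀ T hT
  rw [div_le_iff₀ (by linarith)] at hsmall
  obtain ⟨U, hU⟩ : ∃ U, U = zerosUp χ hχ T ∪ zerosUp ψ hψ T := ⟨_, rfl⟩
  have hUT : ∀ ρ ∈ U, |ρ.im| ≤ T ∧ ρ.re < 1 := fun ρ hρ => by
    rw [hU, Finset.mem_union] at hρ
    rcases hρ with h | h <;>
    · obtain ⟨-, -, h1, h2⟩ := (Set.Finite.mem_toFinset _).1 h
      exact ⟨h2, h1⟩
  have e1 := zeroSum_eq_lMult hp hχ p T (hU ▸ Finset.subset_union_left) fun ρ h => (hUT ρ h).1
  have e2 := zeroSum_eq_lMult hp' hψ p T (hU ▸ Finset.subset_union_right) fun ρ h => (hUT ρ h).1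
  have h1 := hl1 T hT2
  have h2 := hl2 T hT2
  rw [coefAt_natCast, lamChar, ArithmeticFunction.vonMangoldt_apply_prime hpp] at h1 h2
  rw [← hU]
  have hdiff : ‖zeroSum χ (p : ℝ) T - zeroSum ψ (p : ℝ) T‖ ≤
      p * ∑ ρ ∈ U, |(lMult χ ρ : ℝ) - lMult ψ ρ| := by
    rw [e1, e2, ← Finset.sum_sub_distrib, Finset.mul_sum]
    refine (norm_sum_le _ _).trans (Finset.sum_le_sum fun ρ hρ => ?_)
    rw [← sub_mul, norm_mul, norm_cpow_eq_rpow_re_of_pos (by linarith), mul_comm,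
      show ((lMult χ ρ : ℂ) - lMult ψ ρ) = (((lMult χ ρ : ℝ) - lMult ψ ρ : ℝ) : ℂ) by
        push_cast; rfl,
      Complex.norm_real, Real.norm_eq_abs]
    refine mul_le_mul_of_nonneg_right ?_ (abs_nonneg _)
    exact (Real.rpow_le_rpow_of_exponent_le hp1.le (hUT ρ hρ).2.le).trans
      (le_of_eq (Real.rpow_one _))
  have hmain : T * d ≤ ‖zeroSum χ (p : ℝ) T - zeroSum ψ (p : ℝ) T‖ +
      (A + B) * Real.log T ^ 2 := by
    have e : ((T / π : ℝ) : ℂ) * ((χ p - ψ p) * ((Real.log p : ℝ) : ℂ)) =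
        (zeroSum χ (p : ℝ) T + ((T / π : ℝ) : ℂ) * (χ p * ((Real.log p : ℝ) : ℂ))) -
          (zeroSum ψ (p : ℝ) T + ((T / π : ℝ) : ℂ) * (ψ p * ((Real.log p : ℝ) : ℂ))) -
          (zeroSum χ (p : ℝ) T - zeroSum ψ (p : ℝ) T) := by ring
    have h := congrArg (‖·‖) e
    simp only [norm_mul, Complex.norm_real, Real.norm_eq_abs, abs_of_pos hlp,
      abs_of_pos (div_pos (show 0 < T by linarith) Real.pi_pos)] at h
    rw [show T * d = T / π * (‖χ p - ψ p‖ * Real.log p) by rw [hd]; ring, h]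
    refine (norm_sub_le _ _).trans ?_
    refine le_trans (add_le_add ((norm_sub_le _ _).trans (add_le_add h1 h2)) le_rfl) ?_
    linarith
  rw [div_mul_eq_mul_div, div_le_iff₀ (by linarith)]
  linarith

/-- A multiplicity is `O (log T)`. -/
theorem exists_lMult_le (hp : χ.IsPrimitive) (hχ : χ ≠ 1) : ∃ C, 0 < C ∧ ∀ T : ℝ, 2 ≤ T →
    ∀ ρ : ℂ, |ρ.im| ≤ T → (lMult χ ρ : ℝ) ≤ C * Real.log T := by
  obtain ⟨W, hW, hwin⟩ := exists_lZeroCount_window
  obtain ⟨g, hg⟩ : ∃ g : ℝ, g = 2 * Real.log q + 3 := ⟨_, rfl⟩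
  have hg0 : 0 < g := by rw [hg]; linarith [Real.log_natCast_nonneg q]
  refine ⟨W * g + 2 * lZeroCount χ 2 + 1, by positivity, fun T hT ρ hρ => ?_⟩
  have hl : 1 / 2 ≤ Real.log T := by
    have := Real.log_le_log two_pos hT
    linarith [Real.log_two_gt_d9]
  by_cases h0 : completedLFunction χ ρ = 0
  swap
  · rw [lMult_eq_zero hχ h0, Nat.cast_zero]
    positivity
  obtain ⟨hre, -⟩ := completed_zero_strip hp hχ h0
  have hmem : ∀ S : ℝ, |ρ.im| ≤ S → ρ ∈ (finite_lZeros hχ S).toFinset := fun S hS =>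
    (Set.Finite.mem_toFinset _).2 ((mem_lZeros_iff hp hχ).2 ⟨h0, hS⟩)
  have hbound : (lMult χ ρ : ℝ) ≤ W * g * Real.log T ∨ (lMult χ ρ : ℝ) ≤ lZeroCount χ 2 := by
    rw [lMult_eq_order hχ hre]
    rcases le_or_gt |ρ.im| 2 with h | h
    · refine Or.inr (Nat.cast_le.2 ?_)
      rw [lZeroCount_eq_sum hχ]
      exact Finset.single_le_sum (f := fun z => analyticOrderNatAt (LFunction χ) z)
        (fun z _ => Nat.zero_le _) (hmem 2 h)
    · refine Or.inl ?_
      obtain ⟨S, hS⟩ : ∃ S, S = |ρ.im| - 1 / 2 := ⟨_, rfl⟩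
      have hnum : analyticOrderNatAt (LFunction χ) ρ + lZeroCount χ S ≤ lZeroCount χ (S + 1) := by
        classical
        rw [lZeroCount_eq_sum hχ, lZeroCount_eq_sum hχ (S + 1),
          ← Finset.sum_insert (a := ρ) (f := fun z => analyticOrderNatAt (LFunction χ) z)
            (fun hm => by
              have := ((Set.Finite.mem_toFinset _).1 hm).2.2.2
              linarith)]
        refine Finset.sum_le_sum_of_subset (Finset.insert_subset (hmem _ (by linarith)) ?_)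
        exact Set.Finite.toFinset_subset_toFinset.2
          fun z ⟨a, b, c, d⟩ => ⟨a, b, c, d.trans (by linarith)⟩
      have hw := hwin q χ hp hχ S (by linarith)
      have hq : qLog q S ≤ g * Real.log T := by
        refine le_trans (Real.log_le_log (mul_pos (Nat.cast_pos.2 (NeZero.pos q)) (by positivity))
          ?_) (hg ▸ qLog_le_log q hT)
        rw [abs_of_nonneg (by linarith), abs_of_nonneg (by linarith)]
        exact mul_le_mul_of_nonneg_left (by linarith) (Nat.cast_nonneg q)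
      have e : (analyticOrderNatAt (LFunction χ) ρ : ℝ) + lZeroCount χ S ≤
          lZeroCount χ (S + 1) := by
        exact_mod_cast hnum
      have := mul_le_mul_of_nonneg_left hq hW
      linarith
  have hN : (0 : ℝ) ≤ lZeroCount χ 2 := Nat.cast_nonneg _
  have := mul_nonneg (mul_nonneg hW hg0.le) (show 0 ≤ Real.log T by linarith)
  have := mul_le_mul_of_nonneg_left hl hN
  rcases hbound with h | h <;> linarith

/-- **The distinct points where the multiplicities differ.** -/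
theorem exists_diff_points (hp : χ.IsPrimitive) (hχ : χ ≠ 1) (hp' : ψ.IsPrimitive) (hψ : ψ ≠ 1)
    (hne : ∃ n : ℕ, χ n ≠ ψ n) : ∃ c T₀ : ℝ, 0 < c ∧ ∀ T : ℝ, T₀ ≤ T →
      c * T / Real.log T ≤ ((zerosUp χ hχ T ∪ zerosUp ψ hψ T).filter
        fun ρ => lMult χ ρ ≠ lMult ψ ρ).card := by
  classical
  obtain ⟨c, T₀, hc, h⟩ := exists_diff_lower hp hχ hp' hψ hne
  obtain ⟨C, hC, hm⟩ := exists_lMult_le hp hχ
  obtain ⟨D, hD, hm'⟩ := exists_lMult_le hp' hψ
  refine ⟨c / (C + D), max T₀ 2, by positivity, fun T hT => ?_⟩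
  have hT2 : 2 ≤ T := (le_max_right _ _).trans hT
  have hl : 0 < Real.log T := Real.log_pos (by linarith)
  have h1 := h T ((le_max_left _ _).trans hT)
  rw [← Finset.sum_filter_of_ne (p := fun ρ => lMult χ ρ ≠ lMult ψ ρ) fun ρ _ hρ e => hρ (by
    rw [e, sub_self, abs_zero])] at h1
  have h2 := Finset.sum_le_card_nsmul ((zerosUp χ hχ T ∪ zerosUp ψ hψ T).filter
    fun ρ => lMult χ ρ ≠ lMult ψ ρ) (fun ρ => |(lMult χ ρ : ℝ) - lMult ψ ρ|)
    ((C + D) * Real.log T) fun ρ hρ => by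
      have hρT : |ρ.im| ≤ T := by
        rcases Finset.mem_union.1 (Finset.mem_filter.1 hρ).1 with h | h <;>
          exact ((Set.Finite.mem_toFinset _).1 h).2.2.2
      refine (abs_sub_le (_ : ℝ) 0 _).trans ?_
      rw [sub_zero, zero_sub, abs_neg, Nat.abs_cast, Nat.abs_cast, add_mul]
      exact add_le_add (hm T hT2 ρ hρT) (hm' T hT2 ρ hρT)
  rw [nsmul_eq_mul] at h2
  rw [div_mul_eq_mul_div, div_div, div_le_iff₀ (by positivity)]
  linarith

/-- **The zeros determine the modulus and the character.** -/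
theorem zeros_determine (hp : χ.IsPrimitive) (hχ : χ ≠ 1) (hp' : ψ.IsPrimitive) (hψ : ψ ≠ 1)
    {E : Set ℂ} (hE : E.Finite) (h : ∀ ρ ∉ E, lMult χ ρ = lMult ψ ρ) :
    q = q' ∧ ∀ n : ℕ, χ n = ψ n := by
  classical
  obtain ⟨B, hB⟩ : ∃ B : ℝ, B = ∑ ρ ∈ hE.toFinset, |(lMult χ ρ : ℝ) - lMult ψ ρ| := ⟨_, rfl⟩
  have hsum : ∀ U : Finset ℂ, ∑ ρ ∈ U, |(lMult χ ρ : ℝ) - lMult ψ ρ| ≤ B := fun U => by
    rw [← Finset.sum_filter_of_ne (p := fun ρ => ρ ∈ E) fun ρ _ hρ => by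
      by_contra hn
      exact hρ (by rw [h ρ hn, sub_self, abs_zero]), hB]
    exact Finset.sum_le_sum_of_subset_of_nonneg (fun ρ hρ => hE.mem_toFinset.2
      (Finset.mem_filter.1 hρ).2) fun ρ _ _ => abs_nonneg _
  constructor
  · by_contra hqq
    obtain ⟨C, hC, hcount⟩ := exists_lZeroCount
    obtain ⟨g, hg⟩ : ∃ g : ℝ, g = C * (2 * Real.log q + 3) + C * (2 * Real.log q' + 3) + 2 * B :=
      ⟨_, rfl⟩
    obtain ⟨d, hd⟩ : ∃ d : ℝ, d = |Real.log q - Real.log q'| / π := ⟨_, rfl⟩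
    have hd0 : 0 < d := hd ▸ div_pos (abs_pos.2 (sub_ne_zero.2 fun e => hqq (by
      exact_mod_cast Real.log_injOn_pos (Set.mem_Ioi.2 (Nat.cast_pos.2 (NeZero.pos q)))
        (Set.mem_Ioi.2 (Nat.cast_pos.2 (NeZero.pos q'))) e))) Real.pi_pos
    have hlim : Tendsto (fun T : ℝ => g * Real.log T ^ 1 / T) atTop (𝓝 0) := by
      have h := (Real.tendsto_pow_log_div_mul_add_atTop 1 0 1 one_ne_zero).const_mul g
      rw [mul_zero] at h
      refine h.congr fun T => ?_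
      rw [one_mul, add_zero, ← mul_div_assoc]
    obtain ⟨T, hsmall, hT⟩ := ((hlim.eventually (eventually_lt_nhds hd0)).and
      (eventually_ge_atTop 4)).exists
    rw [pow_one, div_lt_iff₀ (by linarith)] at hsmall
    obtain ⟨U, hU⟩ : ∃ U, U = zerosUp χ hχ T ∪ zerosUp ψ hψ T := ⟨_, rfl⟩
    have hUT : ∀ ρ ∈ U, |ρ.im| ≤ T := fun ρ hρ => by
      rw [hU, Finset.mem_union] at hρ
      rcases hρ with h | h <;> exact ((Set.Finite.mem_toFinset _).1 h).2.2.2
    have hNN : |(lZeroCount χ T : ℝ) - lZeroCount ψ T| ≤ B := by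
      rw [lZeroCount_eq_lMult hp hχ T (hU ▸ Finset.subset_union_left) hUT,
        lZeroCount_eq_lMult hp' hψ T (hU ▸ Finset.subset_union_right) hUT, Nat.cast_sum,
        Nat.cast_sum, ← Finset.sum_sub_distrib]
      exact (Finset.abs_sum_le_sum_abs _ _).trans (hsum U)
    have hl : 1 ≤ Real.log T := by
      rw [Real.le_log_iff_exp_le (by linarith)]
      linarith [Real.exp_one_lt_d9]
    have a1 := (hcount q χ hp hχ T (by linarith)).trans
      (mul_le_mul_of_nonneg_left (qLog_le_log q (show 2 ≤ T by linarith)) hC)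
    have a2 := (hcount q' ψ hp' hψ T (by linarith)).trans
      (mul_le_mul_of_nonneg_left (qLog_le_log q' (show 2 ≤ T by linarith)) hC)
    have hB0 : 0 ≤ B := (abs_nonneg _).trans hNN
    have hBl : B ≤ B * Real.log T := le_mul_of_one_le_right hB0 hl
    have hm : T * d = |lMain q T - lMain q' T| := by
      have e : lMain q T - lMain q' T = T * (Real.log q - Real.log q') / π := by
        rw [eq_div_iff Real.pi_ne_zero, sub_mul, mul_comm (lMain q T), mul_comm (lMain q' T),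
          lMain_eq q (show 0 < T by linarith), lMain_eq q' (show 0 < T by linarith)]
        ring
      rw [e, hd, abs_div, abs_mul, abs_of_pos Real.pi_pos, abs_of_nonneg (show 0 ≤ T by linarith),
        mul_div_assoc]
    have h3 : |lMain q T - lMain q' T| ≤ |(lZeroCount χ T : ℝ) - lMain q T| +
        |(lZeroCount χ T : ℝ) - lZeroCount ψ T| + |(lZeroCount ψ T : ℝ) - lMain q' T| := by
      have u1 := abs_sub_le (lMain q T) (lZeroCount χ T : ℝ) (lMain q' T)
      have u2 := abs_sub_le (lZeroCount χ T : ℝ) (lZeroCount ψ T : ℝ) (lMain q' T)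
      rw [abs_sub_comm (lMain q T) (lZeroCount χ T : ℝ)] at u1
      linarith
    rw [hg] at hsmall
    nlinarith
  · by_contra hn
    push Not at hn
    obtain ⟨c, T₀, hc, hlow⟩ := exists_diff_lower hp hχ hp' hψ hn
    obtain ⟨T, hTB, hT₀⟩ := (((tendsto_id.const_mul_atTop hc).eventually_gt_atTop B).and
      (eventually_ge_atTop T₀)).exists
    exact absurd ((hlow T hT₀).trans (hsum _)) (not_le.2 hTB)

end FA.DirichletLandau

end
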