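import Fermat.Agent.DirichletZeroCount.Main
import Fermat.Agent.Levinson.Companion
import Fermat.Agent.PairCorr.Bounds

/-!
# Horizontal lines away from the zeros

If every ordinate is at distance `δ` from `± t` then `Λ'/Λ` is `O (log (q (|t| + 3)) / δ)` on
`-1 ≤ re s ≤ 2`, `im s = ± t`; every unit interval has such a `t` with `1/δ = O (log (q (T + 3)))`.
-/

set_option autoImplicit false

noncomputable section

namespace FA.DirichletLandau

open Complex Filter Topology Set MeasureTheory Metric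
open DirichletCharacter (LFunction completedLFunction)
open FA.DirichletZeroCount
open scoped Real ComplexConjugate

variable {q : ℕ} [NeZero q] {χ : DirichletCharacter ℂ q}

theorem completed_zero_conj (hp : χ.IsPrimitive) (hχ : χ ≠ 1) {ρ : ℂ}
    (h : completedLFunction χ⁻¹ ρ = 0) : completedLFunction χ (conj ρ) = 0 := by
  have h0 := (completed_zero_strip (isPrimitive_inv' hp) (inv_ne_one' hχ) h).1
  have e := completed_conj_inv (inv_ne_one' hχ) h0
  rwa [inv_inv, h, map_zero] at e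

/-- `L'/L` to the right of the line, away from the zeros. -/
theorem exists_norm_lfunction_logDeriv : ∃ K, 0 ≤ K ∧ ∀ (q : ℕ) [NeZero q]
    (χ : DirichletCharacter ℂ q), χ ≠ 1 → ∀ t δ : ℝ, 0 ≤ t → 0 < δ → δ ≤ 1 →
      (∀ ρ : ℂ, 0 < ρ.re → LFunction χ ρ = 0 → δ ≤ |ρ.im - t|) → ∀ u ∈ Icc (1 / 2 : ℝ) 2,
      ‖deriv (LFunction χ) ((u : ℂ) + t * I) / LFunction χ ((u : ℂ) + t * I)‖ ≤
        K * qLog q t / δ := by
  obtain ⟨K, hK, hexp⟩ := FA.RiemannMangoldt.exists_logDeriv_expansion (r₁ := (8 : ℝ) / 5)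
    (r := 7 / 4) (r₂ := 3 / 2) (by norm_num) (by norm_num) (by norm_num)
  refine ⟨12 * K, by positivity, fun q _ χ hχ t δ ht hδ hδ1 hgap u hu => ?_⟩
  have hd := DirichletCharacter.differentiable_LFunction hχ
  obtain ⟨s₀, hs₀⟩ : ∃ s₀ : ℂ, s₀ = ((2 : ℝ) : ℂ) + t * I := ⟨_, rfl⟩
  obtain ⟨f, hf⟩ : ∃ f : ℂ → ℂ, f = fun z => LFunction χ (s₀ + z) := ⟨_, rfl⟩
  have hfd : Differentiable ℂ f := by
    rw [hf]
    exact hd.comp (differentiable_id.const_add s₀)
  have hlow : 1 / 4 ≤ ‖f 0‖ := by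
    simp only [hf, add_zero]
    exact (lfunction_two_near χ (by simp [hs₀])).2
  obtain ⟨hB1, hBl⟩ := log_disc_bound q ht
  obtain ⟨Z, hZ, hcard, hord, hlog⟩ := hexp univ f (16 * q * (t + 6)) isOpen_univ (subset_univ _)
    hfd.differentiableOn (norm_pos_iff.1 (lt_of_lt_of_le (by norm_num) hlow)) hB1 fun z hz => by
      rw [mem_sphere_zero_iff_norm] at hz
      calc ‖f z‖ ≤ 4 * q * (t + 6) := by
            rw [hf, hs₀]
            exact norm_lfunction_disc hχ ht hz.le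
        _ = 16 * q * (t + 6) * (1 / 4) := by ring
        _ ≤ _ := mul_le_mul_of_nonneg_left hlow (by linarith)
  obtain ⟨E, hE⟩ : ∃ E, E = 6 * K * qLog q t := ⟨_, rfl⟩
  have hE0 : 0 ≤ E := hE ▸ mul_nonneg (by positivity) (zero_le_one.trans (qLog_ge q t).1)
  have hKE : K * (Real.log (16 * q * (t + 6)) + 1) ≤ E :=
    (mul_le_mul_of_nonneg_left hBl hK).trans (le_of_eq (by rw [hE]; ring))
  obtain ⟨z, hz⟩ : ∃ z : ℂ, z = ((u - 2 : ℝ) : ℂ) := ⟨_, rfl⟩
  have hzs : s₀ + z = (u : ℂ) + t * I := by rw [hz, hs₀]; push_cast; ring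
  have hne : LFunction χ ((u : ℂ) + t * I) ≠ 0 := fun h0 => by
    have := hgap _ (by simp; linarith [hu.1]) h0
    simp at this
    linarith
  have h1 := hlog z (mem_closedBall_zero_iff.2 (by
    rw [hz, Complex.norm_real, Real.norm_eq_abs, abs_le]
    constructor <;> linarith [hu.1, hu.2])) (by simpa [hf, hzs] using hne)
  simp only [hf, deriv_comp_const_add, hzs] at h1
  have hsum : ‖(Z.map fun ρ => (z - ρ)⁻¹).sum‖ ≤ Multiset.card Z * (1 / δ) := by
    refine (norm_multiset_sum_le _).trans ?_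
    rw [Multiset.map_map]
    refine (Multiset.sum_map_le_sum_map _ (fun _ => 1 / δ) fun x hx => ?_).trans (le_of_eq ?_)
    · have hx' : 0 < Z.count x := Multiset.count_pos.2 hx
      rw [← hord x (hZ x hx)] at hx'
      have h0 : LFunction χ (s₀ + x) = 0 := by
        simpa [hf] using apply_eq_zero_of_analyticOrderNatAt_ne_zero hx'.ne'
      have hx1 := (abs_re_le_norm x).trans (mem_closedBall_zero_iff.1 (hZ x hx))
      have := hgap _ (by simp [hs₀]; linarith [(abs_le.1 hx1).1]) h0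
      simp only [Function.comp_apply, norm_inv, one_div]
      refine inv_anti₀ hδ (this.trans (le_trans (le_of_eq ?_) (abs_im_le_norm _)))
      simp [hs₀, hz]
    · rw [Multiset.map_const', Multiset.sum_replicate, nsmul_eq_mul]
  have h2 : (Multiset.card Z : ℝ) * (1 / δ) ≤ E * (1 / δ) :=
    mul_le_mul_of_nonneg_right (hcard.trans hKE) (by positivity)
  have h3 : E ≤ E * (1 / δ) := le_mul_of_one_le_right hE0 (by rwa [one_le_div hδ])
  have h4 := norm_le_norm_add_norm_sub' (deriv (LFunction χ) ((u : ℂ) + t * I) /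
    LFunction χ ((u : ℂ) + t * I)) ((Z.map fun ρ => (z - ρ)⁻¹).sum)
  rw [show 12 * K * qLog q t / δ = 2 * (E * (1 / δ)) by rw [hE]; field_simp; ring]
  linarith

/-- `Λ'/Λ` on a horizontal line, right half. -/
theorem exists_norm_lLog_right : ∃ K, 0 ≤ K ∧ ∀ (q : ℕ) [NeZero q]
    (χ : DirichletCharacter ℂ q), χ ≠ 1 → ∀ t δ : ℝ, 0 ≤ t → 0 < δ → δ ≤ 1 →
      (∀ ρ, completedLFunction χ ρ = 0 → δ ≤ |ρ.im - t|) → ∀ u ∈ Icc (1 / 2 : ℝ) 2,
      completedLFunction χ ((u : ℂ) + t * I) ≠ 0 ∧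
        ‖lLog χ ((u : ℂ) + t * I)‖ ≤ K * qLog q t / δ := by
  obtain ⟨K, hK, h⟩ := exists_norm_lfunction_logDeriv
  refine ⟨K + 15, by positivity, fun q _ χ hχ t δ ht hδ hδ1 hgap u hu => ?_⟩
  obtain ⟨a0, a1⟩ := gShift_mem χ
  have hgap' : ∀ ρ : ℂ, 0 < ρ.re → LFunction χ ρ = 0 → δ ≤ |ρ.im - t| := fun ρ h0 hρ =>
    hgap ρ (by rw [completed_eq_mul hχ h0, hρ, mul_zero])
  have hne : completedLFunction χ ((u : ℂ) + t * I) ≠ 0 := fun h0 => by
    have := hgap _ h0
    simp at this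
    linarith
  have hre : 0 < ((u : ℂ) + t * I).re := by simp; linarith [hu.1]
  have hL : LFunction χ ((u : ℂ) + t * I) ≠ 0 := fun h0 => hne (by
    rw [completed_eq_mul hχ hre, h0, mul_zero])
  refine ⟨hne, ?_⟩
  have h1 := h q χ hχ t δ ht hδ hδ1 hgap' u hu
  obtain ⟨w, hw⟩ : ∃ w : ℂ, w = (u : ℂ) + t * I + gShift χ := ⟨_, rfl⟩
  have hwre : w.re = u + gShift χ := by simp [hw]
  have h2 : ‖FA.Levinson.gammaLog w‖ ≤ 15 * qLog q t := by
    rw [FA.Levinson.gammaLog_eq_digamma (by rw [hwre]; linarith [hu.1])]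
    have a := FA.PairCorrelation.norm_digamma_sub_log_le (z := w / 2)
      (by simp [hwre]; linarith [hu.1]) (by simp [hwre]; linarith [hu.2])
    rw [show (w / 2).im = t / 2 by simp [hw], abs_of_nonneg (show 0 ≤ t / 2 by linarith)] at a
    have b := norm_le_norm_add_norm_sub' (deriv Complex.Gamma (w / 2) / Complex.Gamma (w / 2))
      ((Real.log (t / 2 + 2) : ℝ) : ℂ)
    rw [Complex.norm_real, Real.norm_of_nonneg (Real.log_nonneg (by linarith))] at b
    have c : Real.log (t / 2 + 2) ≤ qLog q t := by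
      have hq : (1 : ℝ) ≤ q := Nat.one_le_cast.2 NeZero.one_le
      refine Real.log_le_log (by linarith) ?_
      rw [abs_of_nonneg ht]
      nlinarith
    have d : Real.log π ≤ 3 :=
      (Real.log_le_sub_one_of_pos Real.pi_pos).trans (by linarith [Real.pi_le_four])
    have e : 0 ≤ Real.log π := Real.log_nonneg (by linarith [Real.pi_gt_three])
    refine (norm_add_le _ _).trans ?_
    rw [norm_div, norm_div, norm_neg, Complex.norm_real, Real.norm_of_nonneg e, Complex.norm_two]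
    linarith [(qLog_ge q t).1]
  rw [lLog_eq_add hχ hre hL]
  refine (norm_add_le _ _).trans ?_
  have h3 : ‖deriv Gammaℝ ((u : ℂ) + t * I + gShift χ) /
      Gammaℝ ((u : ℂ) + t * I + gShift χ)‖ ≤ 15 * qLog q t := hw ▸ h2
  have h4 : 15 * qLog q t ≤ 15 * qLog q t / δ :=
    le_div_self (mul_nonneg (by norm_num) (zero_le_one.trans (qLog_ge q t).1)) hδ hδ1
  rw [show (K + 15) * qLog q t / δ = 15 * qLog q t / δ + K * qLog q t / δ by ring]
  linarith

/-- **`Λ'/Λ` on both horizontal edges.** -/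
theorem exists_norm_lLog_edge : ∃ K, 0 ≤ K ∧ ∀ (q : ℕ) [NeZero q]
    (χ : DirichletCharacter ℂ q), χ.IsPrimitive → χ ≠ 1 → ∀ t δ : ℝ, 0 ≤ t → 0 < δ → δ ≤ 1 →
      (∀ ρ, completedLFunction χ ρ = 0 → δ ≤ |(|ρ.im| - t)|) → ∀ ε : ℝ, (ε = t ∨ ε = -t) →
      ∀ u ∈ Icc (-1 : ℝ) 2, ‖lLog χ ((u : ℂ) + ε * I)‖ ≤ K * qLog q t / δ := by
  obtain ⟨K, hK, h⟩ := exists_norm_lLog_right
  refine ⟨K + 1, by positivity, fun q _ χ hp hχ t δ ht hδ hδ1 hgap ε hε => ?_⟩
  have hnear : ∀ y : ℝ, δ ≤ |(|y| - t)| → δ ≤ |y - t| := fun y hy => hy.trans (by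
    have := abs_abs_sub_abs_le_abs_sub y t
    rwa [abs_of_nonneg ht] at this)
  have hgap1 : ∀ ρ, completedLFunction χ ρ = 0 → δ ≤ |ρ.im - t| := fun ρ hρ =>
    hnear _ (hgap ρ hρ)
  have hgap2 : ∀ ρ, completedLFunction χ⁻¹ ρ = 0 → δ ≤ |ρ.im - t| := fun ρ hρ => hnear _ (by
    have := hgap _ (completed_zero_conj hp hχ hρ)
    rwa [conj_im, abs_neg] at this)
  have hright : ∀ u ∈ Icc (1 / 2 : ℝ) 2, completedLFunction χ ((u : ℂ) + ε * I) ≠ 0 ∧
      ‖lLog χ ((u : ℂ) + ε * I)‖ ≤ K * qLog q t / δ := fun u hu => by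
    rcases hε with rfl | rfl
    · exact h q χ hχ _ δ ht hδ hδ1 hgap1 u hu
    · obtain ⟨h0, h1⟩ := h q χ⁻¹ (inv_ne_one' hχ) t δ ht hδ hδ1 hgap2 u hu
      have hre : 0 < ((u : ℂ) + t * I).re := by simp; linarith [hu.1]
      have e : conj ((u : ℂ) + t * I) = (u : ℂ) + ((-t : ℝ) : ℂ) * I := by simp
      have c1 := completed_conj_inv (inv_ne_one' hχ) hre
      have c2 := lLog_conj_inv (inv_ne_one' hχ) hre
      rw [inv_inv, e] at c1 c2
      rw [c1, c2, Complex.norm_conj]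
      exact ⟨(map_ne_zero conj).2 h0, h1⟩
  intro u hu
  have hKl : K * qLog q t / δ ≤ (K + 1) * qLog q t / δ :=
    div_le_div_of_nonneg_right (mul_le_mul_of_nonneg_right (by linarith)
      (zero_le_one.trans (qLog_ge q t).1)) hδ.le
  rcases le_or_gt (1 / 2) u with hu2 | hu2
  · exact (hright u ⟨hu2, hu.2⟩).2.trans hKl
  · obtain ⟨h0, h1⟩ := hright (1 - u) ⟨by linarith, by linarith [hu.1]⟩
    rw [show (u : ℂ) + ε * I = 1 - conj (((1 - u : ℝ) : ℂ) + ε * I) from
      Complex.ext (by simp) (by simp), lLog_reflect hp hχ (by simp; linarith) h0, norm_neg]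
    refine (norm_add_le _ _).trans ?_
    rw [Complex.norm_conj, Complex.norm_real, Real.norm_of_nonneg (Real.log_natCast_nonneg q)]
    have h2 : Real.log q ≤ qLog q t / δ :=
      le_trans (by linarith [(qLog_ge q t).2])
        (le_div_self (zero_le_one.trans (qLog_ge q t).1) hδ hδ1)
    rw [show (K + 1) * qLog q t / δ = qLog q t / δ + K * qLog q t / δ by ring]
    linarith

/-- **A height well away from the ordinates.** -/
theorem exists_spaced_height : ∃ C, 0 < C ∧ ∀ (q : ℕ) [NeZero q]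
    (χ : DirichletCharacter ℂ q), χ.IsPrimitive → χ ≠ 1 → ∀ T : ℝ, 1 ≤ T →
      ∃ t δ : ℝ, T ≤ t ∧ t ≤ T + 1 ∧ 0 < δ ∧ δ ≤ 1 ∧ 1 / δ ≤ C * qLog q T ∧
        ∀ ρ, completedLFunction χ ρ = 0 → δ ≤ |(|ρ.im| - t)| := by
  classical
  obtain ⟨C, hC, hwin⟩ := exists_lZeroCount_window
  refine ⟨18 * C + 6, by positivity, fun q _ χ hp hχ T hT => ?_⟩
  obtain ⟨A, hA⟩ : ∃ A : Finset ℝ, A = (((finite_lZeros hχ (T + 2)).toFinset).filter
      fun ρ => T - 1 < |ρ.im|).image fun ρ => |ρ.im| := ⟨_, rfl⟩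
  have hnum : A.card + lZeroCount χ (T - 1) ≤ lZeroCount χ (T + 2) := by
    rw [lZeroCount_eq_sum hχ (T + 2), ← Finset.sum_filter_add_sum_filter_not _
      (fun ρ : ℂ => T - 1 < |ρ.im|), hA, lZeroCount_eq_sum hχ (T - 1)]
    refine add_le_add (Finset.card_image_le.trans ?_) (Finset.sum_le_sum_of_subset fun ρ hρ => ?_)
    · rw [Finset.card_eq_sum_ones]
      refine Finset.sum_le_sum fun ρ hρ => one_le_order hp hχ (T := T + 2) ?_
      exact (Set.Finite.mem_toFinset _).1 (Finset.mem_filter.1 hρ).1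
    · rw [Set.Finite.mem_toFinset] at hρ
      rw [Finset.mem_filter, Set.Finite.mem_toFinset, not_lt]
      exact ⟨⟨hρ.1, hρ.2.1, hρ.2.2.1, hρ.2.2.2.trans (by linarith)⟩, hρ.2.2.2⟩
  have hcard : (A.card : ℝ) ≤ 6 * C * qLog q T := by
    have w1 := hwin q χ hp hχ (T - 1) (by linarith)
    have w2 := hwin q χ hp hχ T (by linarith)
    have w3 := hwin q χ hp hχ (T + 1) (by linarith)
    rw [sub_add_cancel] at w1
    rw [show T + 1 + 1 = T + 2 by ring] at w3
    have l1 : qLog q (T - 1) ≤ qLog q T := by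
      refine Real.log_le_log (mul_pos (Nat.cast_pos.2 (NeZero.pos q)) (by positivity)) ?_
      rw [abs_of_nonneg (by linarith), abs_of_nonneg (by linarith)]
      exact mul_le_mul_of_nonneg_left (by linarith) (Nat.cast_nonneg q)
    have l3 := qLog_near q (show (0 : ℝ) ≤ T by linarith) (show T ≤ T + 1 by linarith) le_rfl
    have e : (A.card : ℝ) + lZeroCount χ (T - 1) ≤ lZeroCount χ (T + 2) := by exact_mod_cast hnum
    have l1' := mul_le_mul_of_nonneg_left l1 hC
    have l3' := mul_le_mul_of_nonneg_left l3 hC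
    nlinarith [(qLog_ge q T).1]
  obtain ⟨d, hd⟩ : ∃ d : ℝ, d = 1 / ((A.card : ℝ) + 2) := ⟨_, rfl⟩
  have hd0 : 0 < d := by rw [hd]; positivity
  obtain ⟨j, hj, hfree⟩ : ∃ j ∈ Finset.range (A.card + 1),
      ∀ a ∈ A, d / 3 ≤ |a - (T + ((j : ℝ) + 1) * d)| := by
    by_contra hno
    push Not at hno
    choose! f hf hclose using hno
    have hinj : Set.InjOn f (Finset.range (A.card + 1) : Set ℕ) := by
      intro i hi j hj hij
      have h1 := hclose i hi
      have h2 := hclose j hj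
      rw [hij] at h1
      rw [abs_lt] at h1 h2
      by_contra hne
      rcases Nat.lt_or_gt_of_ne hne with hlt | hlt
      · have h3 : ((i : ℝ) + 1) ≤ j := by exact_mod_cast hlt
        nlinarith
      · have h3 : ((j : ℝ) + 1) ≤ i := by exact_mod_cast hlt
        nlinarith
    have := Finset.card_le_card_of_injOn f (fun i hi => hf i hi) hinj
    rw [Finset.card_range] at this
    omega
  have hjd : ((j : ℝ) + 2) * d ≤ 1 := by
    rw [hd, mul_one_div, div_le_one (by positivity)]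
    have : (j : ℝ) ≤ A.card := by
      exact_mod_cast Nat.lt_succ_iff.1 (Finset.mem_range.1 hj)
    linarith
  have hj0 : 0 ≤ (j : ℝ) * d := by positivity
  refine ⟨T + ((j : ℝ) + 1) * d, d / 3, by nlinarith, by nlinarith, by positivity, by nlinarith,
    ?_, fun ρ hρ => ?_⟩
  · rw [hd, one_div_div, div_div_eq_mul_div, div_one]
    nlinarith [(qLog_ge q T).1]
  · by_cases hm : T - 1 < |ρ.im| ∧ |ρ.im| ≤ T + 2
    · refine hfree _ ?_
      rw [hA]
      exact Finset.mem_image.2 ⟨ρ, Finset.mem_filter.2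
        ⟨(Set.Finite.mem_toFinset _).2 ((mem_lZeros_iff hp hχ).2 ⟨hρ, hm.2⟩), hm.1⟩, rfl⟩
    · rcases le_or_gt |ρ.im| (T - 1) with h1 | h1
      · rw [abs_of_nonpos (by nlinarith)]
        nlinarith
      · have h2 : T + 2 < |ρ.im| := lt_of_not_ge fun h => hm ⟨h1, h⟩
        rw [abs_of_nonneg (by nlinarith)]
        nlinarith

end FA.DirichletLandau

end
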