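import Fermat.Agent.DirichletZeroCount.Edges
import Fermat.Agent.ZeroOrdinates.Lines
import Fermat.Agent.Levinson.Companion
import Mathlib.NumberTheory.LSeries.Dirichlet

/-!
# The vertical lines in Landau's formula for a Dirichlet L-function

On `re s = 2` the integral of `x ^ s L'/L` over `[-T, T]` is `-2 T χ(x) Λ(x) + O (1)`, and that of
`x ^ s` times a slowly varying Gamma part is `O (log T)`.
-/

set_option autoImplicit false

noncomputable section

namespace FA.DirichletLandau

open Complex Filter Topology Set MeasureTheory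
open DirichletCharacter (LFunction)
open FA.DirichletZeroCount (gShift gShift_mem)
open FA.Levinson (gammaLog gammaLog_eq_digamma)
open FA.ZeroOrdinates (osc norm_osc continuous_osc osc_mul cpow_line term_line exists_freq_ge
  norm_integral_series_le norm_integral_osc_mul_le norm_digamma_sub_le)
open scoped Real ComplexConjugate ArithmeticFunction.vonMangoldt

variable {q : ℕ} [NeZero q] {χ : DirichletCharacter ℂ q}

/-- `χ n Λ n`. -/
def lamChar (χ : DirichletCharacter ℂ q) (n : ℕ) : ℂ := χ n * ((Λ n : ℝ) : ℂ)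

/-- A sequence extended by `0` to the real numbers. -/
def coefAt (a : ℕ → ℂ) (x : ℝ) : ℂ := if (⌊x⌋₊ : ℝ) = x then a ⌊x⌋₊ else 0

theorem coefAt_natCast (a : ℕ → ℂ) (n : ℕ) : coefAt a n = a n := by simp [coefAt]

theorem coefAt_of_ne (a : ℕ → ℂ) {x : ℝ} (h : ∀ n : ℕ, (n : ℝ) ≠ x) : coefAt a x = 0 :=
  if_neg (h _)

omit [NeZero q] in
theorem summable_term_lamChar (χ : DirichletCharacter ℂ q) :
    Summable fun n => ‖LSeries.term (lamChar χ) ((2 : ℝ) : ℂ) n‖ :=
  Summable.norm (DirichletCharacter.LSeriesSummable_twist_vonMangoldt χ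
    (s := ((2 : ℝ) : ℂ)) (by rw [ofReal_re]; norm_num))

theorem negLogDeriv_two (χ : DirichletCharacter ℂ q) (v : ℝ) :
    -(deriv (LFunction χ) (((2 : ℝ) : ℂ) + v * I) / LFunction χ (((2 : ℝ) : ℂ) + v * I)) =
      ∑' n, LSeries.term (lamChar χ) ((2 : ℝ) : ℂ) n * osc (-Real.log n) v := by
  obtain ⟨s, hs⟩ : ∃ s : ℂ, s = ((2 : ℝ) : ℂ) + v * I := ⟨_, rfl⟩
  have hre : 1 < s.re := by simp [hs]
  rw [← hs, DirichletCharacter.deriv_LFunction_eq_deriv_LSeries _ hre,
    DirichletCharacter.LFunction_eq_LSeries _ hre, ← neg_div,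
    ← DirichletCharacter.LSeries_twist_vonMangoldt_eq χ hre, LSeries]
  exact tsum_congr fun n => hs ▸ term_line _ _ _ _

/-- **A Dirichlet series against `x ^ s` on a vertical line.** -/
theorem exists_integral_series {x : ℝ} (hx : 1 < x) (a : ℕ → ℂ) (σ : ℝ)
    (ha : Summable fun n => ‖LSeries.term a (σ : ℂ) n‖) : ∃ C, 0 ≤ C ∧ ∀ lo hi : ℝ,
      ‖(∫ v in lo..hi, (x : ℂ) ^ ((σ : ℂ) + v * I) *
          ∑' n, LSeries.term a (σ : ℂ) n * osc (-Real.log n) v) -
        coefAt a x * ((hi - lo : ℝ) : ℂ)‖ ≤ C := by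
  classical
  have hx0 : 0 < x := by linarith
  obtain ⟨δ, hδ, hfreq⟩ := exists_freq_ge hx
  obtain ⟨ω, hω⟩ : ∃ ω : ℕ → ℝ, ω = fun n : ℕ => Real.log x - Real.log n := ⟨_, rfl⟩
  obtain ⟨c, hc⟩ : ∃ c : ℕ → ℂ,
      c = fun n => ((x ^ σ : ℝ) : ℂ) * LSeries.term a (σ : ℂ) n := ⟨_, rfl⟩
  obtain ⟨d, hd⟩ : ∃ d : ℕ → ℂ, d = fun n : ℕ => if (n : ℝ) = x then 0 else c n := ⟨_, rfl⟩
  have hcn : Summable fun n => ‖c n‖ := by
    simp only [hc, norm_mul]
    exact ha.mul_left _
  have hdn : Summable fun n => ‖d n‖ := hcn.of_nonneg_of_le (fun n => norm_nonneg _) fun n => by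
    simp only [hd]
    split_ifs <;> simp
  have hdω : ∀ n, d n ≠ 0 → δ ≤ |ω n| := fun n hn => by
    simp only [hd, ne_eq, ite_eq_left_iff, Classical.not_imp] at hn
    obtain ⟨h1, h2⟩ := hn
    rw [hω]
    refine hfreq n (Nat.pos_of_ne_zero fun h0 => h2 ?_) h1
    simp [hc, h0]
  have hint : ∀ v : ℝ, (x : ℂ) ^ ((σ : ℂ) + v * I) *
      (∑' n, LSeries.term a (σ : ℂ) n * osc (-Real.log n) v) =
        coefAt a x + ∑' n, d n * osc (ω n) v := by
    intro v
    rw [cpow_line hx0, ← tsum_mul_left]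
    have e : ∀ n, ((x ^ σ : ℝ) : ℂ) * osc (Real.log x) v *
        (LSeries.term a (σ : ℂ) n * osc (-Real.log n) v) = c n * osc (ω n) v := fun n => by
      simp only [hω, hc, sub_eq_add_neg, ← osc_mul]
      ring
    simp only [e]
    by_cases hN : (⌊x⌋₊ : ℝ) = x
    · have hs : Summable fun n => c n * osc (ω n) v :=
        Summable.of_norm (hcn.congr fun n => by rw [norm_mul, norm_osc, mul_one])
      rw [hs.tsum_eq_add_tsum_ite ⌊x⌋₊, coefAt, if_pos hN]
      congr 1
      · have hm0 : (⌊x⌋₊) ≠ 0 := fun h => by rw [h, Nat.cast_zero] at hN; linarith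
        have hω0 : ω ⌊x⌋₊ = 0 := by simp only [hω, hN, sub_self]
        have hpow : ((x : ℂ)) ^ (σ : ℂ) = ((x ^ σ : ℝ) : ℂ) := (ofReal_cpow hx0.le _).symm
        rw [hω0, FA.ZeroOrdinates.osc_zero, mul_one, hc]
        simp only
        rw [LSeries.term_of_ne_zero hm0,
          show ((⌊x⌋₊ : ℕ) : ℂ) = (x : ℂ) by rw [← ofReal_natCast, hN], hpow]
        have : ((x ^ σ : ℝ) : ℂ) ≠ 0 :=
          ofReal_ne_zero.2 (Real.rpow_pos_of_pos hx0 _).ne'
        field_simp
      · refine tsum_congr fun n => ?_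
        have hiff : n = ⌊x⌋₊ ↔ (n : ℝ) = x := by rw [← Nat.cast_inj (R := ℝ), hN]
        simp only [hd, hiff]
        split_ifs <;> simp
    · have hne : ∀ n : ℕ, (n : ℝ) ≠ x := fun n h => hN (by rw [← h, Nat.floor_natCast])
      rw [coefAt, if_neg hN, zero_add]
      exact tsum_congr fun n => by simp [hd, hne n]
  refine ⟨2 / δ * ∑' n, ‖d n‖, by positivity, fun lo hi => ?_⟩
  have hgi : IntervalIntegrable (fun v => ∑' n, d n * osc (ω n) v) volume lo hi :=
    (continuous_tsum (f := fun n v => d n * osc (ω n) v)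
      (fun n => continuous_const.mul (continuous_osc _)) hdn fun n v => by
      rw [norm_mul, norm_osc, mul_one]).intervalIntegrable _ _
  rw [intervalIntegral.integral_congr (g := fun v => coefAt a x + ∑' n, d n * osc (ω n) v)
      fun v _ => hint v,
    intervalIntegral.integral_add intervalIntegrable_const hgi, intervalIntegral.integral_const,
    Complex.real_smul]
  refine le_trans (le_of_eq ?_) (norm_integral_series_le hdn hδ hdω lo hi)
  congr 1
  push_cast
  ring

/-- **The conjugate series against `x ^ s`**: no frequency vanishes. -/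
theorem exists_integral_series_conj {x : ℝ} (hx : 1 < x) (a : ℕ → ℂ) (σ : ℝ)
    (ha : Summable fun n => ‖LSeries.term a (σ : ℂ) n‖) (ρ : ℝ) : ∃ C, 0 ≤ C ∧ ∀ lo hi : ℝ,
      ‖∫ v in lo..hi, (x : ℂ) ^ ((ρ : ℂ) + v * I) *
          conj (∑' n, LSeries.term a (σ : ℂ) n * osc (-Real.log n) v)‖ ≤ C := by
  have hx0 : 0 < x := by linarith
  obtain ⟨c, hc⟩ : ∃ c : ℕ → ℂ,
      c = fun n => ((x ^ ρ : ℝ) : ℂ) * conj (LSeries.term a (σ : ℂ) n) := ⟨_, rfl⟩
  have hcn : Summable fun n => ‖c n‖ := by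
    simp only [hc, norm_mul, Complex.norm_conj]
    exact ha.mul_left _
  have hω : ∀ n : ℕ, c n ≠ 0 → Real.log x ≤ |Real.log x + Real.log n| := fun n _ =>
    le_trans (by linarith [Real.log_natCast_nonneg n]) (le_abs_self _)
  have hconj : ∀ L v : ℝ, conj (osc L v) = osc (-L) v := fun L v => by
    rw [osc, osc, ← Complex.exp_conj, map_mul, conj_ofReal, conj_I]
    congr 1
    push_cast
    ring
  refine ⟨2 / Real.log x * ∑' n, ‖c n‖,
    mul_nonneg (div_nonneg two_pos.le (Real.log_pos hx).le) (tsum_nonneg fun n => norm_nonneg _),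
    fun lo hi => ?_⟩
  refine le_trans (le_of_eq ?_) (norm_integral_series_le (ω := fun n => Real.log x + Real.log n)
    hcn (Real.log_pos hx) hω lo hi)
  congr 1
  refine intervalIntegral.integral_congr fun v _ => ?_
  rw [Complex.conj_tsum, cpow_line hx0, ← tsum_mul_left]
  refine tsum_congr fun n => ?_
  rw [map_mul, hconj, neg_neg, ← osc_mul]
  simp only [hc]
  ring

/-- Functions that vary slowly and grow like the logarithm. -/
structure SlowFn (f : ℝ → ℂ) : Prop where
  cont : Continuous f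
  bound : ∀ v, ‖f v‖ ≤ 14 + Real.log (|v| + 2)
  lip : ∀ v h : ℝ, 2 ≤ v → 0 ≤ h →
    ‖f (v + h) - f v‖ ≤ 5 / 2 * h / v ∧ ‖f (-(v + h)) - f (-v)‖ ≤ 5 / 2 * h / v

theorem SlowFn.conj_fn {f : ℝ → ℂ} (hf : SlowFn f) : SlowFn fun v => conj (f v) where
  cont := continuous_conj.comp hf.cont
  bound v := by rw [Complex.norm_conj]; exact hf.bound v
  lip v h hv hh := by
    simp only [← map_sub, Complex.norm_conj]
    exact hf.lip v h hv hh

theorem SlowFn.flip {f : ℝ → ℂ} (hf : SlowFn f) : SlowFn fun v => f (-v) where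
  cont := hf.cont.comp continuous_neg
  bound v := by simpa using hf.bound (-v)
  lip v h hv hh := by
    simp only [neg_neg]
    exact ⟨(hf.lip v h hv hh).2, (hf.lip v h hv hh).1⟩

theorem log_shift_le {c T v : ℝ} (hc : 0 ≤ c) (hT : 1 ≤ T) (hv : 0 ≤ v) (hvT : v ≤ T + c) :
    Real.log (v + 2) ≤ Real.log T + Real.log (c + 3) := by
  rw [← Real.log_mul (by linarith) (by linarith)]
  exact Real.log_le_log (by linarith) (by nlinarith)

/-- A frequency against a slowly varying function on `[2, T]`. -/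
theorem exists_slow_half {L : ℝ} (hL : 0 < L) : ∃ C, 0 ≤ C ∧ ∀ f : ℝ → ℂ, SlowFn f →
    ∀ T : ℝ, 2 ≤ T → ‖∫ v in (2 : ℝ)..T, osc L v * f v‖ ≤ C * (Real.log T + 1) := by
  obtain ⟨c, hc⟩ : ∃ c, c = π / L := ⟨_, rfl⟩
  have hc0 : 0 ≤ c := hc ▸ (div_pos Real.pi_pos hL).le
  refine ⟨c * (17 + Real.log (c + 3)), mul_nonneg hc0
    (by linarith [Real.log_nonneg (show 1 ≤ c + 3 by linarith)]), fun f hf T hT => ?_⟩
  have h := norm_integral_osc_mul_le (C := 5 / 2) (M := 14 + (Real.log T + Real.log (c + 3))) hL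
    le_rfl hT hf.cont (fun v hv => (hf.bound v).trans (add_le_add le_rfl (by
      rw [abs_of_nonneg (by linarith [hv.1])]
      exact log_shift_le hc0 (by linarith) (by linarith [hv.1]) (hc ▸ hv.2))))
    fun v hv => (hf.lip v _ hv (hc ▸ hc0)).1
  rw [← hc] at h
  refine h.trans ?_
  rw [mul_assoc]
  refine mul_le_mul_of_nonneg_left ?_ hc0
  have h1 : Real.log (T / 2) ≤ Real.log T := Real.log_le_log (by linarith) (by linarith)
  have h2 : 0 ≤ Real.log T := Real.log_nonneg (by linarith)
  have h3 : 0 ≤ Real.log (c + 3) := Real.log_nonneg (by linarith)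
  nlinarith

/-- **A frequency against a slowly varying function on `[-T, T]`.** -/
theorem exists_slow_osc {L : ℝ} (hL : L ≠ 0) : ∃ C, 0 ≤ C ∧ ∀ f : ℝ → ℂ, SlowFn f →
    ∀ T : ℝ, 2 ≤ T → ‖∫ v in (-T)..T, osc L v * f v‖ ≤ C * (Real.log T + 1) := by
  have key : ∀ L : ℝ, 0 < L → ∃ C, 0 ≤ C ∧ ∀ f : ℝ → ℂ, SlowFn f →
      ∀ T : ℝ, 2 ≤ T → ‖∫ v in (-T)..T, osc L v * f v‖ ≤ C * (Real.log T + 1) := by
    intro L hL
    obtain ⟨C, hC, h⟩ := exists_slow_half hL
    refine ⟨2 * C + 4 * (14 + Real.log 4), by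
      linarith [Real.log_nonneg (show (1 : ℝ) ≤ 4 by norm_num)], fun f hf T hT => ?_⟩
    have hi : ∀ a b : ℝ, IntervalIntegrable (fun v => osc L v * f v) volume a b := fun a b =>
      ((continuous_osc L).mul hf.cont).intervalIntegrable a b
    rw [← intervalIntegral.integral_add_adjacent_intervals (hi (-T) (-2)) (hi (-2) T),
      ← intervalIntegral.integral_add_adjacent_intervals (hi (-2) 2) (hi 2 T)]
    have h1 := h f hf T hT
    have h2 : ‖∫ v in (-T)..(-2 : ℝ), osc L v * f v‖ ≤ C * (Real.log T + 1) := by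
      refine le_trans (le_of_eq ?_) (h _ hf.flip.conj_fn T hT)
      rw [← Complex.norm_conj, ← intervalIntegral.intervalIntegral_conj,
        ← intervalIntegral.integral_comp_neg]
      congr 1
      refine intervalIntegral.integral_congr fun v _ => ?_
      simp only [map_mul, osc, ← Complex.exp_conj, conj_ofReal, conj_I]
      congr 2
      push_cast
      ring
    have h3 : ‖∫ v in (-2 : ℝ)..2, osc L v * f v‖ ≤ 4 * (14 + Real.log 4) := by
      refine (intervalIntegral.norm_integral_le_of_norm_le_const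
        (C := 14 + Real.log 4) fun v hv => ?_).trans (le_of_eq (by norm_num; ring))
      rw [uIoc_of_le (by norm_num)] at hv
      rw [norm_mul, norm_osc, one_mul]
      refine (hf.bound v).trans (add_le_add le_rfl (Real.log_le_log (by positivity) ?_))
      linarith [abs_le.2 ⟨hv.1.le, hv.2⟩]
    refine (norm_add_le _ _).trans ((add_le_add h2 ((norm_add_le _ _).trans
      (add_le_add h3 h1))).trans ?_)
    nlinarith [Real.log_nonneg (show 1 ≤ T by linarith),
      Real.log_nonneg (show (1 : ℝ) ≤ 4 by norm_num)]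
  rcases lt_or_gt_of_ne hL with h | h
  · obtain ⟨C, hC, hb⟩ := key (-L) (by linarith)
    refine ⟨C, hC, fun f hf T hT => le_trans (le_of_eq ?_) (hb _ hf.conj_fn T hT)⟩
    rw [← Complex.norm_conj, ← intervalIntegral.intervalIntegral_conj]
    congr 1
    refine intervalIntegral.integral_congr fun v _ => ?_
    simp only [map_mul, osc, ← Complex.exp_conj, conj_ofReal, conj_I]
    congr 2
    push_cast
    ring
  · exact key L h

/-- The Gamma part on `re s = 2`. -/
def gammaTwo (χ : DirichletCharacter ℂ q) (v : ℝ) : ℂ :=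
  gammaLog (((2 + gShift χ : ℝ) : ℂ) + v * I)

omit [NeZero q] in
theorem gammaTwo_eq (χ : DirichletCharacter ℂ q) (v : ℝ) :
    gammaTwo χ v = -((Real.log π : ℝ) : ℂ) / 2 +
      deriv Complex.Gamma ((((2 + gShift χ : ℝ) : ℂ) + v * I) / 2) /
        Complex.Gamma ((((2 + gShift χ : ℝ) : ℂ) + v * I) / 2) / 2 :=
  gammaLog_eq_digamma (by simp; linarith [(gShift_mem χ).1])

omit [NeZero q] in
theorem slowFn_gammaTwo (χ : DirichletCharacter ℂ q) : SlowFn (gammaTwo χ) := by
  obtain ⟨a0, a1⟩ := gShift_mem χ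
  obtain ⟨w, hw⟩ : ∃ w : ℝ → ℂ, w = fun v : ℝ => (((2 + gShift χ : ℝ) : ℂ) + v * I) / 2 :=
    ⟨_, rfl⟩
  have hre : ∀ v, (w v).re = (2 + gShift χ) / 2 := fun v => by simp [hw]
  have him : ∀ v, (w v).im = v / 2 := fun v => by simp [hw]
  have he : ∀ v, gammaTwo χ v = -((Real.log π : ℝ) : ℂ) / 2 +
      deriv Complex.Gamma (w v) / Complex.Gamma (w v) / 2 := fun v => by
    rw [hw]; exact gammaTwo_eq χ v
  refine ⟨?_, fun v => ?_, fun v h hv hh => ?_⟩
  · have hd : DifferentiableOn ℂ Complex.Gamma {z : ℂ | 0 < z.re} := fun z hz =>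
      (Complex.differentiableAt_Gamma z fun m hm => by
        have : 0 < z.re := hz
        rw [hm, neg_re, natCast_re] at this
        linarith [(Nat.cast_nonneg m : (0 : ℝ) ≤ m)]).differentiableWithinAt
    have hc : Continuous fun v => deriv Complex.Gamma (w v) / Complex.Gamma (w v) :=
      continuous_iff_continuousAt.2 fun v => ContinuousAt.comp'
        (g := fun z => deriv Complex.Gamma z / Complex.Gamma z)
        (FA.LevinsonThird.continuousAt_logDeriv (isOpen_lt continuous_const continuous_re) hd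
          (show 0 < (w v).re by rw [hre]; linarith)
          (Complex.Gamma_ne_zero_of_re_pos (by rw [hre]; linarith)))
        (f := w) (by rw [hw]; fun_prop)
    rw [show gammaTwo χ = _ from funext he]
    exact continuous_const.add (hc.div_const 2)
  · have h := FA.PairCorrelation.norm_digamma_sub_log_le (z := w v) (by rw [hre]; linarith)
      (by rw [hre]; linarith)
    rw [him, abs_div, abs_two] at h
    have h1 : Real.log (|v| / 2 + 2) ≤ Real.log (|v| + 2) :=
      Real.log_le_log (by positivity) (by linarith [abs_nonneg v])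
    have h2 : 0 ≤ Real.log (|v| / 2 + 2) := Real.log_nonneg (by linarith [abs_nonneg v])
    have h3 : Real.log π ≤ 3 :=
      (Real.log_le_sub_one_of_pos Real.pi_pos).trans (by linarith [Real.pi_le_four])
    have h4 : 0 ≤ Real.log π := Real.log_nonneg (by linarith [Real.pi_gt_three])
    rw [he]
    refine (norm_add_le _ _).trans ?_
    rw [norm_div, norm_div, norm_neg, Complex.norm_real, Real.norm_of_nonneg h4,
      Complex.norm_two]
    have h5 := (norm_le_norm_add_norm_sub' (deriv Complex.Gamma (w v) / Complex.Gamma (w v))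
      ((Real.log (|v| / 2 + 2) : ℝ) : ℂ))
    rw [Complex.norm_real, Real.norm_of_nonneg h2] at h5
    linarith
  · have hstep : ∀ s t : ℝ, v ≤ |s| → v ≤ |t| → |s - t| = h →
        ‖gammaTwo χ s - gammaTwo χ t‖ ≤ 5 / 2 * h / v := by
      intro s t hs ht hst
      have h1 := norm_digamma_sub_le (z := w s) (w := w t) (Y := v / 2)
        (by rw [hre]; linarith) (by rw [hre]; linarith) (by linarith)
        (by rw [him, abs_div, abs_two]; linarith) (by rw [him, abs_div, abs_two]; linarith)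
      have h2 : ‖w s - w t‖ = h / 2 := by
        rw [show w s - w t = (((s - t : ℝ)) : ℂ) * I / 2 by rw [hw]; push_cast; ring, norm_div,
          norm_mul, Complex.norm_real, Complex.norm_I, Complex.norm_two, Real.norm_eq_abs, hst,
          mul_one]
      rw [h2] at h1
      rw [he, he, add_sub_add_left_eq_sub, ← sub_div, norm_div, Complex.norm_two]
      refine (div_le_div_of_nonneg_right h1 two_pos.le).trans (le_of_eq ?_)
      field_simp
    exact ⟨hstep _ _ (le_trans (by linarith) (le_abs_self _)) (le_abs_self v)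
      (by rw [add_sub_cancel_left, abs_of_nonneg hh]),
      hstep _ _ (by rw [abs_neg]; exact le_trans (by linarith) (le_abs_self _))
        (by rw [abs_neg]; exact le_abs_self v)
      (by rw [show -(v + h) - -v = -h by ring, abs_neg, abs_of_nonneg hh])⟩

end FA.DirichletLandau

end
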