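import Fermat.Agent.DirichletLandau.Lines
import Fermat.Agent.DirichletLandau.Heights

/-!
# Landau's formula for Dirichlet L-functions

`∑_{|im ρ| ≤ T} x ^ ρ = -(T / π) χ(x) Λ(x) + O (log² T)` for each `x > 1`, from the integral of
`x ^ s Λ'/Λ` round `[-1, 2] × [-T, T]`.
-/

set_option autoImplicit false

noncomputable section

namespace FA.DirichletLandau

open Complex Filter Topology Set MeasureTheory
open DirichletCharacter (LFunction completedLFunction)
open FA.DirichletZeroCount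
open FA.ExplicitFormula (boxInt boxInt_congr boxInt_add boxInt_eq_zero boxEdges interior_not_edge)
open FA.RiemannMangoldt (rootProd rootProd_ne_zero hasDerivAt_rootProd)
open FA.LevinsonThird (boxInt_sum_poles continuousAt_logDeriv)
open FA.ZeroOrdinates (osc norm_osc continuous_osc cpow_line norm_integral_osc_le)
open FA.Levinson (gammaLog)
open scoped Real ComplexConjugate ArithmeticFunction.vonMangoldt

variable {q : ℕ} [NeZero q] {χ : DirichletCharacter ℂ q}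

/-- The zeros up to height `T` as a finite set. -/
def zerosUp (χ : DirichletCharacter ℂ q) (hχ : χ ≠ 1) (T : ℝ) : Finset ℂ :=
  (finite_lZeros hχ T).toFinset

/-- `∑ x ^ ρ` over the zeros with `0 < re < 1` and `|im| ≤ T`, with multiplicity. -/
def zeroSum (χ : DirichletCharacter ℂ q) (x T : ℝ) : ℂ :=
  ∑ᶠ ρ ∈ lZeros χ T, (analyticOrderNatAt (LFunction χ) ρ : ℂ) * (x : ℂ) ^ ρ

theorem zeroSum_eq_sum (hχ : χ ≠ 1) (x T : ℝ) :
    zeroSum χ x T = ∑ ρ ∈ zerosUp χ hχ T,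
      (analyticOrderNatAt (LFunction χ) ρ : ℂ) * (x : ℂ) ^ ρ :=
  finsum_mem_eq_finite_toFinset_sum _ _

theorem norm_zeroSum_le (hχ : χ ≠ 1) {x : ℝ} (hx : 1 ≤ x) (T : ℝ) :
    ‖zeroSum χ x T‖ ≤ x * lZeroCount χ T := by
  rw [zeroSum_eq_sum hχ, lZeroCount_eq_sum hχ, Nat.cast_sum, Finset.mul_sum]
  refine (norm_sum_le _ _).trans (Finset.sum_le_sum fun ρ hρ => ?_)
  rw [norm_mul, Complex.norm_natCast, norm_cpow_eq_rpow_re_of_pos (by linarith), mul_comm]
  refine mul_le_mul_of_nonneg_right ?_ (Nat.cast_nonneg _)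
  obtain ⟨-, -, h1, -⟩ := (Set.Finite.mem_toFinset _).1 hρ
  exact (Real.rpow_le_rpow_of_exponent_le hx h1.le).trans (le_of_eq (Real.rpow_one x))

theorem norm_zeroSum_sub_le (hχ : χ ≠ 1) {x S T : ℝ} (hx : 1 ≤ x) (h : S ≤ T) :
    ‖zeroSum χ x T - zeroSum χ x S‖ ≤ x * ((lZeroCount χ T : ℝ) - lZeroCount χ S) := by
  classical
  have hsub : zerosUp χ hχ S ⊆ zerosUp χ hχ T := Set.Finite.toFinset_subset_toFinset.2
    fun ρ ⟨a, b, c, d⟩ => ⟨a, b, c, d.trans h⟩
  rw [zeroSum_eq_sum hχ, zeroSum_eq_sum hχ, lZeroCount_eq_sum hχ, lZeroCount_eq_sum hχ,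
    Nat.cast_sum, Nat.cast_sum]
  simp only [zerosUp] at hsub ⊢
  rw [← Finset.sum_sdiff hsub, add_sub_cancel_right, ← Finset.sum_sdiff hsub,
    add_sub_cancel_right, Finset.mul_sum]
  refine (norm_sum_le _ _).trans (Finset.sum_le_sum fun ρ hρ => ?_)
  rw [norm_mul, Complex.norm_natCast, norm_cpow_eq_rpow_re_of_pos (by linarith), mul_comm]
  refine mul_le_mul_of_nonneg_right ?_ (Nat.cast_nonneg _)
  obtain ⟨-, -, h1, -⟩ := (Set.Finite.mem_toFinset _).1 (Finset.mem_sdiff.1 hρ).1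
  exact (Real.rpow_le_rpow_of_exponent_le hx h1.le).trans (le_of_eq (Real.rpow_one x))

/-- **The residues.** -/
theorem boxInt_weighted (hp : χ.IsPrimitive) (hχ : χ ≠ 1) {x : ℝ} (hx : 0 < x) {T : ℝ}
    (hT : 0 ≤ T) (hord : ∀ ρ, completedLFunction χ ρ = 0 → |ρ.im| ≠ T) :
    boxInt (fun s => (x : ℂ) ^ s * lLog χ s) (-1) 2 T = 2 * π * I * zeroSum χ x T := by
  classical
  obtain ⟨K, hK⟩ : ∃ K : Set ℂ, K = Icc (-1 : ℝ) 2 ×ℂ Icc (-T) T := ⟨_, rfl⟩
  obtain ⟨Φ, hΦ⟩ : ∃ Φ : ℂ → ℂ, Φ = fun s => (x : ℂ) ^ s := ⟨_, rfl⟩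
  have hΦd : Differentiable ℂ Φ := fun s => by
    rw [hΦ]
    exact ((hasDerivAt_id' s).const_cpow (Or.inl (ofReal_ne_zero.2 hx.ne'))).differentiableAt
  have hd := DirichletCharacter.differentiable_completedLFunction hχ
  obtain ⟨Z, h, hh, he, hZK, hne, hcount⟩ := FA.Levinson.exists_compact_factor isOpen_univ
    (hK ▸ isCompact_Icc.reProdIm isCompact_Icc : IsCompact K) (subset_univ _)
    hd.differentiableOn fun z _ => order_completed_ne_top hχ z
  have hh' : Differentiable ℂ h := fun z => hh.differentiableAt univ_mem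
  have hmemK : ∀ s : ℂ, s.re ∈ Icc (-1 : ℝ) 2 → s.im ∈ Icc (-T) T → s ∈ K := fun s h1 h2 => by
    rw [hK, mem_reProdIm]
    exact ⟨h1, h2⟩
  have hZ0 : ∀ ρ ∈ Z, completedLFunction χ ρ = 0 := fun ρ hρ => by
    rw [he]
    refine mul_eq_zero_of_left ?_ _
    simp only [rootProd, Multiset.prod_eq_zero_iff, Multiset.mem_map]
    exact ⟨ρ, hρ, sub_self ρ⟩
  have hZin : ∀ ρ ∈ Z, -1 < ρ.re ∧ ρ.re < 2 ∧ |ρ.im| < T := fun ρ hρ => by
    obtain ⟨h0, h1⟩ := completed_zero_strip hp hχ (hZ0 ρ hρ)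
    have h2 := hZK ρ hρ
    rw [hK, mem_reProdIm] at h2
    exact ⟨by linarith, by linarith, lt_of_le_of_ne (abs_le.2 h2.2) (hord ρ (hZ0 ρ hρ))⟩
  obtain ⟨hc1, hi1⟩ := boxInt_sum_poles hΦd hT Z hZin
  have hH : ∀ s ∈ K, DifferentiableAt ℂ (fun z => Φ z * (deriv h z / h z)) s := fun s hs =>
    (hΦd s).mul (((hh'.analyticAt s).deriv.differentiableAt).div (hh' s) (hne s hs))
  have hedge : ∀ s ∈ boxEdges (-1) 2 T, s ∈ K ∧ ∀ ρ ∈ Z, s ≠ ρ := fun s hs => by
    refine ⟨?_, fun ρ hρ => ?_⟩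
    · obtain ⟨h1, h2, -⟩ := hs
      rw [uIcc_of_le (by norm_num)] at h1
      rw [uIcc_of_le (by linarith)] at h2
      exact hmemK s h1 h2
    · obtain ⟨a1, a2, a3⟩ := hZin ρ hρ
      exact interior_not_edge a1 a2 a3.ne hT hs
  have heq : boxInt (fun s => (x : ℂ) ^ s * lLog χ s) (-1) 2 T = boxInt (fun s =>
      (Z.map fun w => Φ s / (s - w)).sum + Φ s * (deriv h s / h s)) (-1) 2 T := by
    refine boxInt_congr fun s hs => ?_
    obtain ⟨hsK, hsne⟩ := hedge s hs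
    have hd' : deriv (completedLFunction χ) s =
        rootProd Z s * (Z.map fun ρ => (s - ρ)⁻¹).sum * h s + rootProd Z s * deriv h s := by
      rw [show completedLFunction χ = fun w => rootProd Z w * h w from funext he]
      exact ((hasDerivAt_rootProd hsne).mul (hh' s).hasDerivAt).deriv
    have n1 := rootProd_ne_zero hsne
    have n2 := hne s hsK
    simp only [div_eq_mul_inv (Φ s), Multiset.sum_map_mul_left]
    rw [show (x : ℂ) ^ s = Φ s by rw [hΦ], lLog, hd', he s]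
    field_simp
  rw [heq, boxInt_add hc1 fun s hs => (hH s (hedge s hs).1).continuousAt, hi1,
    boxInt_eq_zero (by norm_num) hT fun s h1 h2 => hH s (hmemK s h1 h2), add_zero]
  congr 1
  have hsub : Z.toFinset ⊆ zerosUp χ hχ T := fun ρ hρ => by
    rw [Multiset.mem_toFinset] at hρ
    exact (Set.Finite.mem_toFinset _).2 ((mem_lZeros_iff hp hχ).2 ⟨hZ0 ρ hρ, (hZin ρ hρ).2.2.le⟩)
  rw [zeroSum_eq_sum hχ, Finset.sum_multiset_map_count, Finset.sum_subset hsub fun ρ _ hρ => by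
    rw [Multiset.mem_toFinset] at hρ
    rw [Multiset.count_eq_zero.2 hρ, zero_smul]]
  refine Finset.sum_congr rfl fun ρ hρ => ?_
  obtain ⟨-, h0, h1, h2⟩ := (Set.Finite.mem_toFinset _).1 hρ
  rw [← analyticOrderNatAt_completed hχ h0,
    hcount ρ (hmemK ρ ⟨by linarith, by linarith⟩ (abs_le.1 h2)), nsmul_eq_mul, hΦ]

/-- **The right line.** -/
theorem exists_right_line (hχ : χ ≠ 1) {x : ℝ} (hx : 1 < x) : ∃ C, 0 ≤ C ∧ ∀ T : ℝ, 2 ≤ T →
    ‖(∫ v in (-T)..T, (x : ℂ) ^ (((2 : ℝ) : ℂ) + v * I) * lLog χ (((2 : ℝ) : ℂ) + v * I)) +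
      coefAt (lamChar χ) x * ((2 * T : ℝ) : ℂ)‖ ≤ C * (Real.log T + 1) := by
  have hx0 : 0 < x := by linarith
  obtain ⟨C₁, hC₁, hser⟩ := exists_integral_series hx (lamChar χ) 2 (summable_term_lamChar χ)
  obtain ⟨C₂, hC₂, hslow⟩ := exists_slow_osc (L := Real.log x) (Real.log_pos hx).ne'
  refine ⟨x ^ (2 : ℝ) * C₂ + C₁, by positivity, fun T hT => ?_⟩
  have hs := slowFn_gammaTwo χ
  have hL : ∀ v : ℝ, LFunction χ (((2 : ℝ) : ℂ) + v * I) ≠ 0 := fun v =>
    DirichletCharacter.LFunction_ne_zero_of_one_le_re χ (Or.inl hχ) (by simp)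
  have he : ∀ v : ℝ, (x : ℂ) ^ (((2 : ℝ) : ℂ) + v * I) * lLog χ (((2 : ℝ) : ℂ) + v * I) =
      ((x ^ (2 : ℝ) : ℝ) : ℂ) * (osc (Real.log x) v * gammaTwo χ v) -
        (x : ℂ) ^ (((2 : ℝ) : ℂ) + v * I) *
          ∑' n, LSeries.term (lamChar χ) ((2 : ℝ) : ℂ) n * osc (-Real.log n) v := fun v => by
    rw [← negLogDeriv_two, lLog_eq_add hχ (by simp) (hL v), gammaTwo, gammaLog,
      show ((2 : ℝ) : ℂ) + v * I + gShift χ = ((2 + gShift χ : ℝ) : ℂ) + v * I by push_cast; ring,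
      cpow_line hx0]
    ring
  simp only [he]
  have hcS : Continuous fun v : ℝ =>
      ∑' n, LSeries.term (lamChar χ) ((2 : ℝ) : ℂ) n * osc (-Real.log n) v :=
    continuous_tsum (fun n => continuous_const.mul (continuous_osc _)) (summable_term_lamChar χ)
      fun n v => by rw [norm_mul, norm_osc, mul_one]
  have hcp : Continuous fun v : ℝ => (x : ℂ) ^ (((2 : ℝ) : ℂ) + v * I) := by
    simp only [cpow_line hx0]
    exact continuous_const.mul (continuous_osc _)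
  have hcg : Continuous fun v : ℝ =>
      ((x ^ (2 : ℝ) : ℝ) : ℂ) * (osc (Real.log x) v * gammaTwo χ v) :=
    continuous_const.mul ((continuous_osc _).mul hs.cont)
  rw [intervalIntegral.integral_sub (hcg.intervalIntegrable _ _)
    ((hcp.fun_mul hcS).intervalIntegrable _ _), intervalIntegral.integral_const_mul]
  have h1 := hser (-T) T
  rw [show T - -T = 2 * T by ring, norm_sub_rev] at h1
  have h2 := mul_le_mul_of_nonneg_left (hslow _ hs T hT) (show 0 ≤ x ^ (2 : ℝ) by positivity)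
  rw [sub_add]
  refine (norm_sub_le _ _).trans ?_
  rw [norm_mul, Complex.norm_real, Real.norm_of_nonneg (show 0 ≤ x ^ (2 : ℝ) by positivity)]
  rw [norm_sub_rev] at h1
  nlinarith [Real.log_nonneg (show 1 ≤ T by linarith)]

/-- **The left line.** -/
theorem exists_left_line (hp : χ.IsPrimitive) (hχ : χ ≠ 1) {x : ℝ} (hx : 1 < x) :
    ∃ C, 0 ≤ C ∧ ∀ T : ℝ, 2 ≤ T →
      ‖∫ v in (-T)..T, (x : ℂ) ^ (((-1 : ℝ) : ℂ) + v * I) * lLog χ (((-1 : ℝ) : ℂ) + v * I)‖ ≤
        C * (Real.log T + 1) := by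
  have hx0 : 0 < x := by linarith
  have hl : Real.log x ≠ 0 := (Real.log_pos hx).ne'
  obtain ⟨C₁, hC₁, hser⟩ := exists_integral_series_conj hx (lamChar χ) 2
    (summable_term_lamChar χ) (-1)
  obtain ⟨C₂, hC₂, hslow⟩ := exists_slow_osc hl
  obtain ⟨r, hr⟩ : ∃ r : ℝ, r = x ^ (-1 : ℝ) := ⟨_, rfl⟩
  have hr0 : 0 ≤ r := hr ▸ Real.rpow_nonneg hx0.le _
  refine ⟨r * Real.log q * (2 / |Real.log x|) + r * C₂ + C₁, by
    have := Real.log_natCast_nonneg q; positivity, fun T hT => ?_⟩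
  have hs := slowFn_gammaTwo χ
  have hL : ∀ v : ℝ, LFunction χ (((2 : ℝ) : ℂ) + v * I) ≠ 0 := fun v =>
    DirichletCharacter.LFunction_ne_zero_of_one_le_re χ (Or.inl hχ) (by simp)
  have he : ∀ v : ℝ, (x : ℂ) ^ (((-1 : ℝ) : ℂ) + v * I) * lLog χ (((-1 : ℝ) : ℂ) + v * I) =
      -(((r * Real.log q : ℝ) : ℂ) * osc (Real.log x) v) -
        (r : ℂ) * (osc (Real.log x) v * conj (gammaTwo χ v)) +
        (x : ℂ) ^ (((-1 : ℝ) : ℂ) + v * I) *
          conj (∑' n, LSeries.term (lamChar χ) ((2 : ℝ) : ℂ) n * osc (-Real.log n) v) := fun v => by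
    rw [← negLogDeriv_two, show ((-1 : ℝ) : ℂ) + v * I = 1 - conj (((2 : ℝ) : ℂ) + v * I) from
      Complex.ext (by simp; norm_num) (by simp),
      lLog_reflect hp hχ (by simp) (completed_ne_zero_right hχ (by simp)),
      lLog_eq_add hχ (by simp) (hL v), gammaTwo, gammaLog,
      show ((2 : ℝ) : ℂ) + v * I + gShift χ = ((2 + gShift χ : ℝ) : ℂ) + v * I by push_cast; ring,
      show (1 : ℂ) - conj (((2 : ℝ) : ℂ) + v * I) = ((-1 : ℝ) : ℂ) + v * I from
        Complex.ext (by simp; norm_num) (by simp),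
      cpow_line hx0, ← hr, map_add, map_neg, ofReal_mul]
    ring
  simp only [he]
  have hcS : Continuous fun v : ℝ =>
      conj (∑' n, LSeries.term (lamChar χ) ((2 : ℝ) : ℂ) n * osc (-Real.log n) v) :=
    continuous_conj.comp (continuous_tsum (fun n => continuous_const.mul (continuous_osc _))
      (summable_term_lamChar χ) fun n v => by rw [norm_mul, norm_osc, mul_one])
  have hcp : Continuous fun v : ℝ => (x : ℂ) ^ (((-1 : ℝ) : ℂ) + v * I) := by
    simp only [cpow_line hx0]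
    exact continuous_const.mul (continuous_osc _)
  have hco : Continuous fun v : ℝ => -(((r * Real.log q : ℝ) : ℂ) * osc (Real.log x) v) :=
    (continuous_const.mul (continuous_osc _)).neg
  have hcg : Continuous fun v : ℝ => (r : ℂ) * (osc (Real.log x) v * conj (gammaTwo χ v)) :=
    continuous_const.mul ((continuous_osc _).mul hs.conj_fn.cont)
  rw [intervalIntegral.integral_add ((hco.fun_sub hcg).intervalIntegrable _ _)
    ((hcp.fun_mul hcS).intervalIntegrable _ _),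
    intervalIntegral.integral_sub (hco.intervalIntegrable _ _) (hcg.intervalIntegrable _ _),
    intervalIntegral.integral_neg, intervalIntegral.integral_const_mul,
    intervalIntegral.integral_const_mul]
  have b1 : ‖-(((r * Real.log q : ℝ) : ℂ) * ∫ v in (-T)..T, osc (Real.log x) v)‖ ≤
      r * Real.log q * (2 / |Real.log x|) := by
    rw [norm_neg, norm_mul, Complex.norm_real,
      Real.norm_of_nonneg (mul_nonneg hr0 (Real.log_natCast_nonneg q))]
    exact mul_le_mul_of_nonneg_left (norm_integral_osc_le hl _ _)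
      (mul_nonneg hr0 (Real.log_natCast_nonneg q))
  have b2 : ‖(r : ℂ) * ∫ v in (-T)..T, osc (Real.log x) v * conj (gammaTwo χ v)‖ ≤
      r * (C₂ * (Real.log T + 1)) := by
    rw [norm_mul, Complex.norm_real, Real.norm_of_nonneg hr0]
    exact mul_le_mul_of_nonneg_left (hslow _ hs.conj_fn T hT) hr0
  refine (norm_add_le _ _).trans ((add_le_add ((norm_sub_le _ _).trans (add_le_add b1 b2))
    (hser (-T) T)).trans ?_)
  have hlT : 1 ≤ Real.log T + 1 := by linarith [Real.log_nonneg (show 1 ≤ T by linarith)]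
  have k1 : 0 ≤ r * Real.log q * (2 / |Real.log x|) :=
    mul_nonneg (mul_nonneg hr0 (Real.log_natCast_nonneg q)) (by positivity)
  have k2 := mul_le_mul_of_nonneg_left hlT k1
  have k3 := mul_le_mul_of_nonneg_left hlT hC₁
  linarith

/-- The formula at a height away from the ordinates. -/
theorem exists_landau_clean (hp : χ.IsPrimitive) (hχ : χ ≠ 1) {x : ℝ} (hx : 1 < x) :
    ∃ C, 0 ≤ C ∧ ∀ T δ : ℝ, 2 ≤ T → 0 < δ → δ ≤ 1 →
      (∀ ρ, completedLFunction χ ρ = 0 → δ ≤ |(|ρ.im| - T)|) →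
      ‖zeroSum χ x T + ((T / π : ℝ) : ℂ) * coefAt (lamChar χ) x‖ ≤
        C * ((Real.log T + 1) + qLog q T / δ) := by
  have hx0 : 0 < x := by linarith
  obtain ⟨A, hA, hright⟩ := exists_right_line hχ hx
  obtain ⟨B, hB, hleft⟩ := exists_left_line hp hχ hx
  obtain ⟨K, hK, hedge⟩ := exists_norm_lLog_edge
  obtain ⟨E, hE⟩ : ∃ E : ℝ, E = 3 * x ^ (2 : ℝ) * K := ⟨_, rfl⟩
  have hE0 : 0 ≤ E := by rw [hE]; positivity
  refine ⟨A + B + 2 * E, by positivity, fun T δ hT hδ hδ1 hgap => ?_⟩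
  have hord : ∀ ρ, completedLFunction χ ρ = 0 → |ρ.im| ≠ T := fun ρ hρ e => by
    have := hgap ρ hρ
    rw [e, sub_self, abs_zero] at this
    linarith
  have hbox := boxInt_weighted hp hχ hx0 (show 0 ≤ T by linarith) hord
  have hhor : ∀ ε : ℝ, (ε = T ∨ ε = -T) → ‖∫ u in (-1 : ℝ)..2,
      (x : ℂ) ^ ((u : ℂ) + ε * I) * lLog χ ((u : ℂ) + ε * I)‖ ≤ E * (qLog q T / δ) :=
    fun ε hε => by
    refine (intervalIntegral.norm_integral_le_of_norm_le_const
      (C := x ^ (2 : ℝ) * (K * qLog q T / δ)) fun u hu => ?_).trans (le_of_eq ?_)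
    · rw [uIoc_of_le (by norm_num)] at hu
      rw [norm_mul, norm_cpow_eq_rpow_re_of_pos hx0]
      exact mul_le_mul (Real.rpow_le_rpow_of_exponent_le hx.le (by simpa using hu.2))
        (hedge q χ hp hχ T δ (by linarith) hδ hδ1 hgap ε hε u ⟨hu.1.le, hu.2⟩) (norm_nonneg _)
        (by positivity)
    · rw [show |(2 : ℝ) - -1| = 3 by norm_num, hE]
      ring
  have hR := hright T hT
  have hL := hleft T hT
  have hBt := hhor (-T) (Or.inr rfl)
  have hTp := hhor T (Or.inl rfl)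
  simp only [boxInt] at hbox
  generalize (∫ u in (-1 : ℝ)..2, (x : ℂ) ^ ((u : ℂ) + ((-T : ℝ) : ℂ) * I) *
    lLog χ ((u : ℂ) + ((-T : ℝ) : ℂ) * I)) = J₁ at hBt hbox
  generalize (∫ u in (-1 : ℝ)..2, (x : ℂ) ^ ((u : ℂ) + (T : ℂ) * I) *
    lLog χ ((u : ℂ) + (T : ℂ) * I)) = J₂ at hTp hbox
  generalize (∫ v in (-T)..T, (x : ℂ) ^ (((2 : ℝ) : ℂ) + v * I) *
    lLog χ (((2 : ℝ) : ℂ) + v * I)) = R at hR hbox
  generalize (∫ v in (-T)..T, (x : ℂ) ^ (((-1 : ℝ) : ℂ) + v * I) *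
    lLog χ (((-1 : ℝ) : ℂ) + v * I)) = L at hL hbox
  obtain ⟨a, ha⟩ : ∃ a, a = coefAt (lamChar χ) x := ⟨_, rfl⟩
  rw [← ha] at hR ⊢
  have e : 2 * π * I * (zeroSum χ x T + ((T / π : ℝ) : ℂ) * a) =
      J₁ - J₂ + I * (R + a * ((2 * T : ℝ) : ℂ)) - I * L := by
    rw [mul_add, ← hbox, ofReal_div, ofReal_mul, ofReal_ofNat]
    have : (π : ℂ) ≠ 0 := ofReal_ne_zero.2 Real.pi_ne_zero
    field_simp
    ring
  have hn := congrArg (‖·‖) e
  simp only [norm_mul, RCLike.norm_ofNat, Complex.norm_real, Real.norm_of_nonneg Real.pi_pos.le,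
    Complex.norm_I, mul_one] at hn
  have h1 := norm_sub_le (J₁ - J₂ + I * (R + a * ((2 * T : ℝ) : ℂ))) (I * L)
  have h2 := norm_add_le (J₁ - J₂) (I * (R + a * ((2 * T : ℝ) : ℂ)))
  have h3 := norm_sub_le J₁ J₂
  rw [norm_mul I L, Complex.norm_I, one_mul] at h1
  rw [norm_mul I, Complex.norm_I, one_mul] at h2
  have hl : 0 ≤ Real.log T + 1 := by linarith [Real.log_nonneg (show 1 ≤ T by linarith)]
  have hq : 0 ≤ qLog q T / δ := div_nonneg (zero_le_one.trans (qLog_ge q T).1) hδ.le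
  have h4 := le_mul_of_one_le_left (norm_nonneg (zeroSum χ x T + ((T / π : ℝ) : ℂ) * a))
    (show 1 ≤ 2 * π by linarith [Real.pi_gt_three])
  have h5 := mul_nonneg hE0 hl
  have h6 := mul_nonneg (add_nonneg hA hB) hq
  nlinarith

omit [NeZero q] in
theorem norm_coefAt_lamChar_le (χ : DirichletCharacter ℂ q) {x : ℝ} (hx : 1 ≤ x) :
    ‖coefAt (lamChar χ) x‖ ≤ Real.log x := by
  rw [coefAt]
  split_ifs with h
  · rw [lamChar, norm_mul, Complex.norm_real,
      Real.norm_of_nonneg ArithmeticFunction.vonMangoldt_nonneg]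
    refine (mul_le_of_le_one_left ArithmeticFunction.vonMangoldt_nonneg (χ.norm_le_one _)).trans
      (ArithmeticFunction.vonMangoldt_le_log.trans (le_of_eq ?_))
    rw [h]
  · rw [norm_zero]
    exact Real.log_nonneg hx

theorem qLog_le_log (q : ℕ) [NeZero q] {T : ℝ} (hT : 2 ≤ T) :
    qLog q T ≤ (2 * Real.log q + 3) * Real.log T := by
  have hl : 1 / 2 ≤ Real.log T := by
    have := Real.log_le_log two_pos hT
    linarith [Real.log_two_gt_d9]
  have h3 : Real.log (T + 3) ≤ 3 * Real.log T := by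
    rw [show (3 : ℝ) * Real.log T = Real.log (T ^ 3) by rw [Real.log_pow]; norm_num]
    exact Real.log_le_log (by linarith)
      (by nlinarith [mul_le_mul hT hT two_pos.le (by linarith : (0 : ℝ) ≤ T)])
  rw [qLog, abs_of_nonneg (by linarith), Real.log_mul (Nat.cast_ne_zero.2 (NeZero.ne q))
    (by linarith)]
  have := mul_le_mul_of_nonneg_left hl (Real.log_natCast_nonneg q)
  nlinarith

/-- **Landau's formula.** -/
theorem exists_landau (hp : χ.IsPrimitive) (hχ : χ ≠ 1) {x : ℝ} (hx : 1 < x) :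
    ∃ C, 0 ≤ C ∧ ∀ T : ℝ, 2 ≤ T →
      ‖zeroSum χ x T + ((T / π : ℝ) : ℂ) * coefAt (lamChar χ) x‖ ≤ C * Real.log T ^ 2 := by
  obtain ⟨A, hA, hclean⟩ := exists_landau_clean hp hχ hx
  obtain ⟨H, hH, hheight⟩ := exists_spaced_height
  obtain ⟨W, hW, hwin⟩ := exists_lZeroCount_window
  obtain ⟨g, hg⟩ : ∃ g : ℝ, g = 2 * Real.log q + 3 := ⟨_, rfl⟩
  have hg0 : 0 ≤ g := by rw [hg]; linarith [Real.log_natCast_nonneg q]
  refine ⟨2 * A * 4 * (1 + H * g ^ 2) + x * (W * g) * 2 + Real.log x * 4, ?_, fun T hT => ?_⟩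
  · have := Real.log_nonneg hx.le
    positivity
  obtain ⟨t, δ, ht1, ht2, hδ, hδ1, hinv, hgap⟩ := hheight q χ hp hχ T (by linarith)
  obtain ⟨a, ha⟩ : ∃ a, a = coefAt (lamChar χ) x := ⟨_, rfl⟩
  have han : ‖a‖ ≤ Real.log x := ha ▸ norm_coefAt_lamChar_le χ hx.le
  obtain ⟨l, hl⟩ : ∃ l, l = Real.log T := ⟨_, rfl⟩
  have hl2 : 1 / 2 ≤ l := by
    have := Real.log_le_log two_pos hT
    rw [hl]
    linarith [Real.log_two_gt_d9]
  have hlt : Real.log t ≤ 2 * l := by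
    rw [hl, show (2 : ℝ) * Real.log T = Real.log (T ^ 2) by rw [Real.log_pow]; norm_num]
    exact Real.log_le_log (by linarith) (by nlinarith)
  have hqt : qLog q t ≤ 2 * (g * l) := by
    refine (qLog_near q (by linarith) ht1 ht2).trans ?_
    rw [hg, hl]
    linarith [qLog_le_log q hT]
  have hqT : qLog q T ≤ g * l := by rw [hg, hl]; exact qLog_le_log q hT
  have h1 := hclean t δ (by linarith) hδ hδ1 hgap
  rw [← ha] at h1 ⊢
  have h2 : qLog q t / δ ≤ 2 * (H * g ^ 2) * l ^ 2 := by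
    rw [div_eq_mul_one_div]
    refine (mul_le_mul hqt (hinv.trans (mul_le_mul_of_nonneg_left hqT hH.le)) (by positivity)
      (mul_nonneg two_pos.le (mul_nonneg hg0 (by linarith)))).trans (le_of_eq ?_)
    ring
  have hl1 : Real.log t + 1 ≤ 8 * l ^ 2 := by nlinarith
  have h3 : ‖zeroSum χ x t + ((t / π : ℝ) : ℂ) * a‖ ≤ 2 * A * 4 * (1 + H * g ^ 2) * l ^ 2 := by
    refine h1.trans ((mul_le_mul_of_nonneg_left (add_le_add hl1 h2) hA).trans ?_)
    have : 0 ≤ A * (H * g ^ 2) * l ^ 2 := by positivity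
    nlinarith
  have h4 : ‖zeroSum χ x t - zeroSum χ x T‖ ≤ x * (W * g) * 2 * l ^ 2 := by
    refine (norm_zeroSum_sub_le hχ hx.le ht1).trans ?_
    have hm : (lZeroCount χ t : ℝ) ≤ lZeroCount χ (T + 1) :=
      Nat.cast_le.2 (lZeroCount_mono hχ ht2)
    have hw := hwin q χ hp hχ T (by linarith)
    have hWq := mul_le_mul_of_nonneg_left hqT hW
    have hll : W * g * l ≤ W * g * (2 * l ^ 2) :=
      mul_le_mul_of_nonneg_left (by nlinarith) (mul_nonneg hW hg0)
    calc x * ((lZeroCount χ t : ℝ) - lZeroCount χ T) ≤ x * (W * g * (2 * l ^ 2)) :=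
          mul_le_mul_of_nonneg_left (by linarith) (by linarith)
      _ = _ := by ring
  have h5 : ‖((T / π : ℝ) : ℂ) * a - ((t / π : ℝ) : ℂ) * a‖ ≤ Real.log x * 4 * l ^ 2 := by
    rw [← sub_mul, ← ofReal_sub, norm_mul, Complex.norm_real, Real.norm_eq_abs, ← sub_div,
      abs_div, abs_of_pos Real.pi_pos, abs_of_nonpos (by linarith)]
    have h6 : -(T - t) / π ≤ 1 := by
      rw [div_le_one Real.pi_pos]
      linarith [Real.pi_gt_three]
    refine (mul_le_mul h6 han (norm_nonneg _) zero_le_one).trans ?_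
    rw [one_mul]
    have := Real.log_nonneg hx.le
    have : 1 ≤ 4 * l ^ 2 := by nlinarith
    nlinarith
  have e : zeroSum χ x T + ((T / π : ℝ) : ℂ) * a = (zeroSum χ x t + ((t / π : ℝ) : ℂ) * a) +
      -(zeroSum χ x t - zeroSum χ x T) + (((T / π : ℝ) : ℂ) * a - ((t / π : ℝ) : ℂ) * a) := by
    ring
  rw [e, ← hl]
  refine norm_add₃_le.trans ?_
  rw [norm_neg]
  linarith

end FA.DirichletLandau

end
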